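/-
S55 / 33c-SUBQUOT-CLASS (helper99), consumer form: helper9's abstract dévissage
(`Fermat.Agent.S55.InfRes9.devissage_pGroup` / `devissage_pPart`) applied to the class
`P := IsSubQuot A` of all subquotients of one fixed pair `(G, A)`.  The consumer only proves the
prime layers `(res H A)^N`, `|H ⧸ N| = p`.
-/
import Fermat.Agent.S55.SubQuot99
import Fermat.Agent.S55.InfRes9.Devissage

set_option autoImplicit false

open CategoryTheory Rep groupCohomology

universe u

namespace Fermat.Agent.S55.SubQuot99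

open Fermat.Agent.S55.InfRes9

variable {k G : Type u} [CommRing k] [Group G] (A : Rep.{u, u, u} k G)

/-- the class of subquotients of `(G, A)` is closed under the two formation operations. -/
theorem closed_isSubQuot : Closed (k := k) (fun Q _ B => IsSubQuot A Q B) where
  res _ _ _ h Q' := h.res Q'
  quot _ _ _ h Q' _ := h.quot Q'

variable {A}

/-- **dévissage inside one pair `(G, A)`, `p`-group layers.**  If every layer `H ⧸ N` of order `p`
has `H¹(H ⧸ N, A^N) = 0` and `|H²(H ⧸ N, A^N)| ∣ p`, then every subquotient `(Q, B)` with `Q` a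
finite `p`-group has `H¹ = 0` and `|H²| ∣ |Q|`. -/
theorem IsSubQuot.good_of_isPGroup (p : ℕ) [Fact p.Prime]
    (hcyc : ∀ (H : Subgroup G) (N : Subgroup H) [N.Normal], Nat.card (H ⧸ N) = p →
      Good p (H ⧸ N) ((Rep.res H.subtype A).quotientToInvariants N))
    {Q : Type u} [Group Q] [Finite Q] {B : Rep.{u, u, u} k Q} (h : IsSubQuot A Q B)
    (hQ : IsPGroup p Q) : Good (Nat.card Q) Q B :=
  devissage_pGroup (P := fun Q _ B => IsSubQuot A Q B) p (closed_isSubQuot A)
    (fun _ _ _ h' hc => h'.good_of_card_eq hcyc hc) Q B h hQ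

/-- the same for the canonical layers. -/
theorem subquot_pGroup (p : ℕ) [Fact p.Prime]
    (hcyc : ∀ (H : Subgroup G) (N : Subgroup H) [N.Normal], Nat.card (H ⧸ N) = p →
      Good p (H ⧸ N) ((Rep.res H.subtype A).quotientToInvariants N))
    (H : Subgroup G) (N : Subgroup H) [N.Normal] [Finite (H ⧸ N)] (hp : IsPGroup p (H ⧸ N)) :
    Good (Nat.card (H ⧸ N)) (H ⧸ N) ((Rep.res H.subtype A).quotientToInvariants N) :=
  (isSubQuot_canonical A H N).good_of_isPGroup p hcyc hp

/-- the same for `(G, A)` itself. -/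
theorem self_pGroup (p : ℕ) [Fact p.Prime]
    (hcyc : ∀ (H : Subgroup G) (N : Subgroup H) [N.Normal], Nat.card (H ⧸ N) = p →
      Good p (H ⧸ N) ((Rep.res H.subtype A).quotientToInvariants N))
    [Finite G] (hp : IsPGroup p G) : Good (Nat.card G) G A :=
  (isSubQuot_self A).good_of_isPGroup p hcyc hp

/-- **dévissage inside one pair `(G, A)`, `p`-parts of arbitrary finite layers.** -/
theorem IsSubQuot.pPart (p : ℕ) [Fact p.Prime]
    (hcyc : ∀ (H : Subgroup G) (N : Subgroup H) [N.Normal], Nat.card (H ⧸ N) = p →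
      Good p (H ⧸ N) ((Rep.res H.subtype A).quotientToInvariants N))
    {Q : Type u} [Group Q] [Finite Q] {B : Rep.{u, u, u} k Q} (h : IsSubQuot A Q B) :
    (∀ x : groupCohomology B 1, (∃ n : ℕ, p ^ n • x = 0) → x = 0) ∧
      Nat.card (pPrimary p (groupCohomology B 2)) ∣ p ^ (Nat.card Q).factorization p :=
  devissage_pPart (P := fun Q _ B => IsSubQuot A Q B) p (closed_isSubQuot A)
    (fun _ _ _ h' hc => h'.good_of_card_eq hcyc hc) Q B h

theorem subquot_pPart (p : ℕ) [Fact p.Prime]
    (hcyc : ∀ (H : Subgroup G) (N : Subgroup H) [N.Normal], Nat.card (H ⧸ N) = p →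
      Good p (H ⧸ N) ((Rep.res H.subtype A).quotientToInvariants N))
    (H : Subgroup G) (N : Subgroup H) [N.Normal] [Finite (H ⧸ N)] :
    (∀ x : groupCohomology ((Rep.res H.subtype A).quotientToInvariants N) 1,
        (∃ n : ℕ, p ^ n • x = 0) → x = 0) ∧
      Nat.card (pPrimary p (groupCohomology ((Rep.res H.subtype A).quotientToInvariants N) 2)) ∣
        p ^ (Nat.card (H ⧸ N)).factorization p :=
  (isSubQuot_canonical A H N).pPart p hcyc

theorem self_pPart (p : ℕ) [Fact p.Prime]
    (hcyc : ∀ (H : Subgroup G) (N : Subgroup H) [N.Normal], Nat.card (H ⧸ N) = p →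
      Good p (H ⧸ N) ((Rep.res H.subtype A).quotientToInvariants N))
    [Finite G] :
    (∀ x : groupCohomology A 1, (∃ n : ℕ, p ^ n • x = 0) → x = 0) ∧
      Nat.card (pPrimary p (groupCohomology A 2)) ∣ p ^ (Nat.card G).factorization p :=
  (isSubQuot_self A).pPart p hcyc

end Fermat.Agent.S55.SubQuot99
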